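import Fermat.Statements.S06
import Fermat.Prelude.Def_WeierstrassCurve_Mlc1RowStatement

set_option autoImplicit false

namespace Fermat.Agent.S06.H61

open FreyPackage WeierstrassCurve

/-- `4 ∣ b^p - 1 - a^p` for a Frey package. -/
theorem four_dvd (P : FreyPackage) : (4 : ℤ) ∣ P.b ^ P.p - 1 - P.a ^ P.p := by
  have hp5 := P.hp5
  have hodd := P.hp_odd
  -- a ≡ 3 mod 4
  have ha : (P.a : ZMod 4) = 3 := P.ha4
  have hb : (2 : ℤ) ∣ P.b := (ZMod.intCast_zmod_eq_zero_iff_dvd P.b 2).1 P.hb2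
  have hb4 : (4 : ℤ) ∣ P.b ^ P.p := by
    obtain ⟨k, hk⟩ := hb
    have : P.p = 2 + (P.p - 2) := by omega
    rw [this, pow_add, hk]
    exact Dvd.dvd.mul_right ⟨k ^ 2, by ring⟩ _
  have hbz : ((P.b ^ P.p : ℤ) : ZMod 4) = 0 := (ZMod.intCast_zmod_eq_zero_iff_dvd _ 4).2 hb4
  apply (ZMod.intCast_zmod_eq_zero_iff_dvd _ 4).1
  push_cast
  have hbz' : (P.b : ZMod 4) ^ P.p = 0 := by exact_mod_cast hbz
  rw [hbz', ha]
  obtain ⟨k, hk⟩ := hodd
  rw [hk, pow_succ, pow_mul]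
  have h9 : (3 : ZMod 4) ^ 2 = 1 := by decide
  rw [h9, one_pow]
  decide

/-- `16 ∣ a^p * b^p` for a Frey package. -/
theorem sixteen_dvd (P : FreyPackage) : (16 : ℤ) ∣ -(P.a ^ P.p) * P.b ^ P.p := by
  have hp5 := P.hp5
  have hb : (2 : ℤ) ∣ P.b := (ZMod.intCast_zmod_eq_zero_iff_dvd P.b 2).1 P.hb2
  obtain ⟨k, hk⟩ := hb
  have : P.p = 4 + (P.p - 4) := by omega
  rw [this, pow_add (P.b), hk]
  exact Dvd.dvd.mul_left (Dvd.dvd.mul_right ⟨k ^ 4, by ring⟩ _) _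

theorem freyCurveInt_map (P : FreyPackage) :
    P.freyCurveInt.map (Int.castRingHom ℚ) = P.freyCurve := by
  obtain ⟨k, hk⟩ := four_dvd P
  obtain ⟨m, hm⟩ := sixteen_dvd P
  have hkQ : ((P.b : ℚ) ^ P.p - 1 - (P.a : ℚ) ^ P.p) = 4 * (k : ℚ) := by exact_mod_cast hk
  have hmQ : (-((P.a : ℚ) ^ P.p) * (P.b : ℚ) ^ P.p) = 16 * (m : ℚ) := by exact_mod_cast hm
  ext
  · simp [freyCurveInt, freyCurve, WeierstrassCurve.map]
  · simp only [freyCurveInt, freyCurve, WeierstrassCurve.map, hk, eq_intCast]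
    rw [hkQ]
    rw [Int.mul_ediv_cancel_left _ (by norm_num : (4 : ℤ) ≠ 0)]
    field_simp
  · simp [freyCurveInt, freyCurve, WeierstrassCurve.map]
  · simp only [freyCurveInt, freyCurve, WeierstrassCurve.map, hm, eq_intCast]
    rw [hmQ]
    rw [Int.mul_ediv_cancel_left _ (by norm_num : (16 : ℤ) ≠ 0)]
    field_simp
  · simp [freyCurveInt, freyCurve, WeierstrassCurve.map]

theorem freyCurveInt_isIntegralModelOf (P : FreyPackage) :
    P.freyCurveInt.IsIntegralModelOf P.freyCurve :=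
  ⟨1, by rw [one_smul, freyCurveInt_map]⟩

/-- `256 * Δ = (a b c)^(2p)`. -/
theorem freyCurveInt_Δ (P : FreyPackage) :
    256 * P.freyCurveInt.Δ = (P.a * P.b * P.c) ^ (2 * P.p) := by
  obtain ⟨k, hk⟩ := four_dvd P
  obtain ⟨m, hm⟩ := sixteen_dvd P
  have hc : P.c ^ P.p = P.a ^ P.p + P.b ^ P.p := P.hFLT.symm
  have e2 : (P.b ^ P.p - 1 - P.a ^ P.p) / 4 = k := by
    rw [hk]; exact Int.mul_ediv_cancel_left _ (by norm_num)
  have e4 : -(P.a ^ P.p) * (P.b ^ P.p) / 16 = m := by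
    rw [hm]; exact Int.mul_ediv_cancel_left _ (by norm_num)
  have hpow : (P.a * P.b * P.c) ^ (2 * P.p)
      = (P.a ^ P.p * P.b ^ P.p * (P.a ^ P.p + P.b ^ P.p)) ^ 2 := by
    rw [← hc, ← mul_pow, ← mul_pow, ← pow_mul, mul_comm P.p 2]
  simp only [WeierstrassCurve.Δ, WeierstrassCurve.b₂, WeierstrassCurve.b₄, WeierstrassCurve.b₆,
    WeierstrassCurve.b₈, freyCurveInt, e2, e4]
  rw [hpow]
  generalize P.a ^ P.p = A at *
  generalize P.b ^ P.p = B at *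
  have h4k : 4 * k = B - 1 - A := hk.symm
  have h16m : 16 * m = -A * B := hm.symm
  have key : 256 * (-(1 ^ 2 + 4 * k) ^ 2 * (1 ^ 2 * 0 + 4 * k * 0 - 1 * 0 * m + k * 0 ^ 2 - m ^ 2)
      - 8 * (2 * m + 1 * 0) ^ 3 - 27 * (0 ^ 2 + 4 * 0) ^ 2
      + 9 * (1 ^ 2 + 4 * k) * (2 * m + 1 * 0) * (0 ^ 2 + 4 * 0))
      = (16 * m) ^ 2 * (1 + 4 * k) ^ 2 - 4 * (16 * m) ^ 3 := by ring
  rw [key, h4k, h16m]
  ring

theorem freyCurveInt_Δ_ne_zero (P : FreyPackage) : P.freyCurveInt.Δ ≠ 0 := by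
  intro h
  have := freyCurveInt_Δ P
  rw [h, mul_zero] at this
  exact pow_ne_zero _ P.habc0 this.symm

theorem dvd_abc_of_dvd_Δ (P : FreyPackage) {q : ℕ} (hq : q.Prime)
    (h : (q : ℤ) ∣ P.freyCurveInt.Δ) : (q : ℤ) ∣ P.a * P.b * P.c := by
  have h1 : (q : ℤ) ∣ (P.a * P.b * P.c) ^ (2 * P.p) := by
    rw [← freyCurveInt_Δ]; exact Dvd.dvd.mul_left h _
  exact (Nat.prime_iff_prime_int.mp hq).dvd_of_dvd_pow h1

/-- Exact modularity of an integral model gives residual modularity in the sense of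
`ModularRepOfLevel`. -/
theorem modularRepOfLevel_of_isModularModelOfLevel (P : FreyPackage) {N : ℕ}
    {W : WeierstrassCurve ℤ} (hW : W.IsIntegralModelOf P.freyCurve)
    (h : W.IsModularModelOfLevel N) : P.ModularRepOfLevel N := by
  obtain ⟨f, hf, hfW⟩ := h
  obtain ⟨𝔪, h𝔪, hp𝔪⟩ := FLTPrelim.exists_maximalIdeal_natCast_prime_mem P.pp
  refine ⟨f, W, 𝔪, hf, hW, h𝔪, hp𝔪, ?_⟩
  intro ℓ hℓ hgood hℓN _
  refine ⟨((W.apOfModel ℓ : ℤ) : integralClosure ℤ ℂ), ?_, ?_⟩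
  · rw [hfW ℓ hℓ hgood hℓN]; simp
  · rw [sub_self]; exact 𝔪.zero_mem

/-- S06 from exact-conductor-level modularity of the integral Frey curve
(the conclusion of S59 applied to `P.freyCurveInt`). -/
theorem S06_of_exactConductorLevel (P : FreyPackage)
    (h : Mlc1IsModularModelOfExactConductorLevel P.freyCurveInt) :
    ∃ N : ℕ, P.IsConductorLevel N ∧ P.ModularRepOfLevel N := by
  obtain ⟨N, hN, hsq, hsupp, hmod⟩ := h
  refine ⟨N, ⟨hN, hsq, fun q hq hqN => dvd_abc_of_dvd_Δ P hq ((hsupp q hq).1 hqN)⟩, ?_⟩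
  exact modularRepOfLevel_of_isModularModelOfLevel P (freyCurveInt_isIntegralModelOf P) hmod

end Fermat.Agent.S06.H61
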